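import Fermat.Agent.TwoAdic.Torus.FrobeniusModel
import Fermat.Agent.BadPrime.CoreAssembly
import Fermat.Agent.BadPrime.GaussTwoComponent

/-!
# Frobenius is `-q` times Atkin–Lehner on classes reducing to zero

If a function on `X₀(Mq)` over `ℚ̄` has residues `(1, 1)` at the two components and all its orders
divisible by `n`, then `w ∘ φ` acts on it as the power `n q - q`, for a Frobenius `φ` at `q`.
-/

set_option autoImplicit false
set_option synthInstance.maxHeartbeats 400000
set_option linter.unusedSectionVars false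
set_option linter.style.haveILetI false
set_option maxSynthPendingDepth 3

noncomputable section

open ModularCurve IntermediateField AlgebraicCurve
open Fermat.Agent.EichlerShimura (bcHom coe_bcHom bcHom_algebraMap bcHom_injective)

namespace Fermat.Agent.TwoAdic.Torus

open Fermat.Agent.BadPrime Fermat.Agent.Reduction Fermat.Agent.Modular

section Level

variable {L : Type*} [Field L] [Algebra ℚ L] [Algebra.IsAlgebraic ℚ L] {A : ValuationSubring L}
  [IsDiscreteValuationRing A] {q : ℕ} [Fact q.Prime] [CharP (IsLocalRing.ResidueField A) q]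
  {M : ℕ} [NeZero M] {w : FL (M * q) L →ₐ[L] FL (M * q) L}
  (ι : L →+* ℂ) (hqM : ¬ q ∣ M) (hw : IsALInvolution w)
  (hfd : HasFullResidueDegree (IsLocalRing.ResidueField A) L M) (ϖ : A) (hϖ : Irreducible ϖ)

theorem isNormalised_of_residues_one {g : FL (M * q) L}
    (h1 : HasGaussRed (IsLocalRing.residue A) (g : LaurentSeries L) 1)
    (h2 : HasGaussRed (IsLocalRing.residue A) ((w g : FL (M * q) L) : LaurentSeries L) 1) :
    (gaussChart ι hqM hw hfd ϖ hϖ false).IsNormalised g := by
  have hi1 := h1.inv one_ne_zero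
  have hi2 := h2.inv one_ne_zero
  rw [inv_one] at hi1 hi2
  have hmem : g ∈ (gaussVertical A ι hqM hw hfd ϖ hϖ).Bv :=
    (mem_pairBv (IsLocalRing.residue A) w).2 ⟨⟨_, h1⟩, ⟨_, h2⟩⟩
  refine ⟨⟨hmem, Prod.ext (Subtype.ext ?_) (Subtype.ext ?_)⟩, ?_⟩
  · show pairRed1 (IsLocalRing.residue A) w ⟨g, hmem⟩ = _
    exact ((hasGaussRed_pairRed1 _ w ⟨g, hmem⟩).unique h1).trans rfl
  · show pairRed2 (IsLocalRing.residue A) w ⟨g, hmem⟩ = _
    exact ((hasGaussRed_pairRed2 _ w ⟨g, hmem⟩).unique h2).trans rfl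
  · refine (mem_pairBv (IsLocalRing.residue A) w).2 ⟨⟨1, ?_⟩, ⟨1, ?_⟩⟩
    · rw [IntermediateField.coe_inv]; exact hi1
    · rw [map_inv₀, IntermediateField.coe_inv]; exact hi2

include ι hqM hw hfd hϖ in
/-- Over a number field, from the hypotheses on the level `M` alone. -/
theorem exists_pow_mul_eq_swapFrob [CharZero L] [Finite (IsLocalRing.ResidueField A)]
    (honto : ∀ b, ChartOnto A q M b) (σ : L ≃ₐ[ℚ] L) (hσ : ∀ a ∈ A, σ a ∈ A)
    (hq : ∀ c : IsLocalRing.ResidueField A, residueAut σ hσ c = c ^ q)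
    {n : ℕ} (hnq : ¬ q ∣ n) {g : FL (M * q) L}
    (h1 : HasGaussRed (IsLocalRing.residue A) (g : LaurentSeries L) 1)
    (h2 : HasGaussRed (IsLocalRing.residue A) ((w g : FL (M * q) L) : LaurentSeries L) 1)
    (hdvd : ∀ v : Place L (FL (M * q) L), (n : ℤ) ∣ v.ord g)
    (hdvd' : ∀ v : Place L (FL (M * q) L),
      (n : ℤ) ∣ v.ord (w (arithmeticRingAut (modularFunctionFieldFull (M * q)) σ g))) :
    ∃ (u : FL (M * q) L) (a : L), u ≠ 0 ∧
      u ^ n * (w (arithmeticRingAut (modularFunctionFieldFull (M * q)) σ g) * g ^ q) =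
        algebraMap L (FL (M * q) L) a :=
  exists_pow_mul_eq_const_swapFrob σ hσ ι hqM hw hfd ϖ hϖ
    (gaussExpansion ι hqM hw hfd ϖ hϖ)
    (fun b => gaussTwoComponent ι hqM hw hfd ϖ hϖ b (honto b) (hasRationalGenerators _ q M b)
      (isFiniteChart _ M b))
    (gaussChartLink ι hqM hw hfd ϖ hϖ false) (gaussChartLink ι hqM hw hfd ϖ hϖ true) hq
    (fun h => hnq (by rw [h]; exact dvd_zero q)) hnq
    (isNormalised_of_residues_one ι hqM hw hfd ϖ hϖ h1 h2) hdvd hdvd'

end Level

section Descent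

local notation "Qb" => AlgebraicClosure ℚ

local instance : Algebra.IsAlgebraic ℚ (AlgebraicClosure ℚ) := AlgebraicClosure.isAlgebraic ℚ

variable {q : ℕ} [Fact q.Prime] {M : ℕ} [NeZero M] {A : ValuationSubring Qb}

/-- An Atkin–Lehner involution as an algebra automorphism. -/
def alAlgEquiv {L : Type*} [Field L] [Algebra ℚ L] {w : FL (M * q) L →ₐ[L] FL (M * q) L}
    (hw : IsALInvolution w) : FL (M * q) L ≃ₐ[L] FL (M * q) L :=
  AlgEquiv.ofAlgHom w w (AlgHom.ext hw.invol) (AlgHom.ext hw.invol)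

theorem alAlgEquiv_apply {L : Type*} [Field L] [Algebra ℚ L]
    {w : FL (M * q) L →ₐ[L] FL (M * q) L} (hw : IsALInvolution w) (x : FL (M * q) L) :
    alAlgEquiv hw x = w x := rfl

theorem toRingAut_ofAlgAut_mul {w : FL (M * q) Qb →ₐ[Qb] FL (M * q) Qb} (hw : IsALInvolution w)
    (φ : Qb ≃ₐ[ℚ] Qb) (x : FL (M * q) Qb) :
    SemilinearAut.toRingAut (SemilinearAut.ofAlgAut (alAlgEquiv hw) *
        arithmeticGalois (modularFunctionFieldFull (M * q)) φ) x =
      w (arithmeticRingAut (modularFunctionFieldFull (M * q)) φ x) := rfl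

/-- `w ∘ φ` acts as the power `n q - q` on functions with residues `(1, 1)`. -/
theorem actsAsPower_swapFrob (hA : A.LiesOverPrime q) (hN : (q = 2 → 3 ∣ M) ∧ (q = 3 → 2 ∣ M))
    (hqM : ¬ q ∣ M) {w : FL (M * q) Qb →ₐ[Qb] FL (M * q) Qb} (hw : IsALInvolution w) {n : ℕ}
    (hn : ¬ q ∣ n) {φ : Qb ≃ₐ[ℚ] Qb} (hφ : A.IsFrobeniusAt φ q) :
    (gaussPair (IsLocalRing.residue A) M q w).ActsAsPower n (n * q - q)
      (SemilinearAut.ofAlgAut (alAlgEquiv hw) *
        arithmeticGalois (modularFunctionFieldFull (M * q)) φ) := by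
  intro g hg hord
  rw [gaussPair_res, OneMemClass.coe_one] at hg
  obtain ⟨k₀, hk₀, hdesc⟩ := exists_descend (modularFunctionFieldFull (M * q)) g
  obtain ⟨k, hk, hfin, hgal⟩ := exists_isGalois_ge k₀
  obtain ⟨f, rfl⟩ := hdesc k hk
  haveI : NumberField k := { }
  haveI : Algebra.IsAlgebraic ℚ k := Algebra.IsAlgebraic.of_finite ℚ k
  set AL := A.comap (algebraMap k Qb) with hALdef
  have hAL : AL.LiesOverPrime q := liesOverPrime_of_le (L := k) A hA fun a ha => ha
  haveI := isDiscreteValuationRing_place (Fact.out : q.Prime) hAL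
  haveI := finite_residueField_place (Fact.out : q.Prime) hAL
  haveI : CharP (IsLocalRing.ResidueField AL) q := EC.charP_residueField AL Fact.out hAL
  obtain ⟨hA', κ, hκ⟩ := exists_residueEmbedding (L₀ := k) A AL hALdef
  let ι : k →+* ℂ :=
    (IsAlgClosed.lift (R := ℚ) (S := Qb) (M := ℂ)).toRingHom.comp (levelVal k).toRingHom
  obtain ⟨wL, hwL⟩ := exists_isALInvolution (L := k) (q := q) (M := M) ι hqM
  have hfd := hasFullResidueDegree_comap (L₀ := k) M hqM A hA AL hALdef
  obtain ⟨ϖ, hϖ⟩ := IsDiscreteValuationRing.exists_irreducible AL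
  have hA'' : ∀ a, a ∈ AL → (levelVal k : k →+* Qb) a ∈ A := fun a ha => ha
  have h1 : HasGaussRed (IsLocalRing.residue AL) (f : LaurentSeries k) 1 :=
    hasGaussRed_one_descend (levelVal k) hA'' κ (fun a => hκ a) hg.1
  have h2 : HasGaussRed (IsLocalRing.residue AL) ((wL f : FL (M * q) k) : LaurentSeries k) 1 := by
    refine hasGaussRed_one_descend (levelVal k) hA'' κ (fun a => hκ a) ?_
    rw [bcHom_involution (levelVal k) hwL hw]
    exact hg.2
  have hres : ∀ a : AL, ∃ h : φ.restrictNormal k (a : k) ∈ AL,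
      IsLocalRing.residue AL ⟨φ.restrictNormal k (a : k), h⟩ = IsLocalRing.residue AL a ^ q := by
    intro a
    obtain ⟨h, he⟩ := EC.residue_apply_eq_of_isFrobeniusAt A hφ
      (x := algebraMap k Qb (a : k)) a.2
    have hc : algebraMap k Qb (φ.restrictNormal k (a : k)) = φ (algebraMap k Qb (a : k)) :=
      φ.restrictNormal_commutes k (a : k)
    have hmem : φ.restrictNormal k (a : k) ∈ AL := by
      show algebraMap k Qb _ ∈ A
      rw [hc]; exact h
    refine ⟨hmem, κ.injective ?_⟩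
    rw [map_pow, ← hκ, ← hκ]
    refine Eq.trans (congrArg _ (Subtype.ext hc)) he
  have hstab : ∀ a ∈ AL, φ.restrictNormal k a ∈ AL := fun a ha => (hres ⟨a, ha⟩).1
  have hfrob : ∀ c : IsLocalRing.ResidueField AL,
      residueAut (φ.restrictNormal k) hstab c = c ^ q := by
    intro c
    obtain ⟨a, rfl⟩ := IsLocalRing.residue_surjective c
    rw [residueAut_residue]
    exact (hres a).2
  set S := SemilinearAut.ofAlgAut (alAlgEquiv hw) *
    arithmeticGalois (modularFunctionFieldFull (M * q)) φ with hSdef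
  have hsm := smul_bcHom (modularFunctionFieldFull (M * q)) k φ f
  set B := bcHom (modularFunctionFieldFull (M * q)) (levelVal k) with hB
  have hS : SemilinearAut.toRingAut S (B f) =
      B (wL (arithmeticRingAut (modularFunctionFieldFull (M * q)) (φ.restrictNormal k) f)) := by
    rw [hSdef, toRingAut_ofAlgAut_mul, hB, bcHom_involution (levelVal k) hwL hw]
    exact congrArg w hsm
  have hord2 := ord_dvd_level (k := k) (n := (n : ℤ))
    (f := wL (arithmeticRingAut (modularFunctionFieldFull (M * q)) (φ.restrictNormal k) f))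
    fun v => by
      rw [← hS]
      have h := SemilinearAut.ord_smul S (S⁻¹ • v) (B f)
      rw [smul_inv_smul] at h
      rw [show SemilinearAut.toRingAut S (B f) = S • B f from rfl, h]
      exact hord _
  haveI : CharZero k := charZero_of_injective_algebraMap (algebraMap ℚ k).injective
  obtain ⟨u, c, hu, huc⟩ := exists_pow_mul_eq_swapFrob ι hqM hwL hfd ϖ hϖ
    (fun b => chartOnto_comap (L₀ := k) M hqM A hA AL hALdef hN b) (φ.restrictNormal k) hstab hfrob
    hn h1 h2 (ord_dvd_level (n := (n : ℤ)) hord) hord2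
  have hn0 : n ≠ 0 := fun h => hn (by rw [h]; exact dvd_zero q)
  have hf0 : B f ≠ 0 := fun h0 => one_ne_zero (hg.1.unique (by rw [h0]; exact hasGaussRed_zero))
  refine ⟨B u * B f ^ q, levelVal k c, mul_ne_zero ((map_ne_zero B).2 hu) (pow_ne_zero q hf0), ?_⟩
  have hnq : (B f ^ q) ^ n = B f ^ q * B f ^ (n * q - q) := by
    rw [← pow_mul, ← pow_add, mul_comm q n,
      Nat.add_sub_cancel' (Nat.le_mul_of_pos_left q (Nat.pos_of_ne_zero hn0))]
  rw [hS, mul_pow, hnq, ← bcHom_algebraMap, ← huc]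
  simp only [map_mul, map_pow]
  ring

end Descent

end Fermat.Agent.TwoAdic.Torus
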