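import Fermat.Agent.TwoAdic.Torus.SwapModel
import Fermat.Agent.BadPrime.GaussSemilinear
import Fermat.Agent.BadPrime.GaussGlobal
import Fermat.Agent.BadPrime.JacobianHorizontal

/-!
# A Frobenius followed by Atkin–Lehner on the two-component model over a number field

The composite exchanges the two components and raises the constants of the special fibre to the
`q`-th power, so for a normalised `g` all of whose orders are divisible by `n` the function
`w (σ g) * g ^ q` is a constant times an `n`-th power.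
-/

set_option autoImplicit false
set_option synthInstance.maxHeartbeats 400000
set_option linter.unusedSectionVars false
set_option maxSynthPendingDepth 3

noncomputable section

open ModularCurve Polynomial

namespace Fermat.Agent.TwoAdic.Torus

open Fermat.Agent.BadPrime Fermat.Agent.Reduction Fermat.Agent.Modular

variable {L : Type*} [Field L] [Algebra ℚ L] [Algebra.IsAlgebraic ℚ L] {A : ValuationSubring L}
  [IsDiscreteValuationRing A] {q : ℕ} [Fact q.Prime] [CharP (IsLocalRing.ResidueField A) q]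
  {M : ℕ} [NeZero M] {w : FL (M * q) L →ₐ[L] FL (M * q) L}
  (σ : L ≃ₐ[ℚ] L) (hσ : ∀ a ∈ A, σ a ∈ A)
  (ι : L →+* ℂ) (hqM : ¬ q ∣ M) (hw : IsALInvolution w)
  (hfd : HasFullResidueDegree (IsLocalRing.ResidueField A) L M) (ϖ : A) (hϖ : Irreducible ϖ)

/-- Frobenius followed by Atkin–Lehner on a chart. -/
def swapFrob (b : Bool) :
    SwapSemilinear (gaussChart ι hqM hw hfd ϖ hϖ b)
      (chartFr (IsLocalRing.ResidueField A) q M b) :=
  (gaussSwap ι hqM hw hfd hϖ b).comp (gaussSemilinear σ hσ ι hqM hw hfd ϖ hϖ b)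

theorem swapFrob_toAut_apply (b : Bool) (x : FL (M * q) L) :
    (swapFrob σ hσ ι hqM hw hfd ϖ hϖ b).toAut x =
      w (arithmeticRingAut (modularFunctionFieldFull (M * q)) σ x) := rfl

theorem swapFrob_toAut_eq (b b' : Bool) :
    (swapFrob σ hσ ι hqM hw hfd ϖ hϖ b).toAut = (swapFrob σ hσ ι hqM hw hfd ϖ hϖ b').toAut :=
  RingEquiv.ext fun x => (swapFrob_toAut_apply σ hσ ι hqM hw hfd ϖ hϖ b x).trans
    (swapFrob_toAut_apply σ hσ ι hqM hw hfd ϖ hϖ b' x).symm

theorem coeffMap_eq_self_of_chartFr {b : Bool}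
    (hq : ∀ c : IsLocalRing.ResidueField A, residueAut σ hσ c = c ^ q)
    (g : chartP (IsLocalRing.ResidueField A) M q b)
    (hg : chartFr (IsLocalRing.ResidueField A) q M b g = g ^ q) :
    chartPhi (residueAut σ hσ : IsLocalRing.ResidueField A →+* IsLocalRing.ResidueField A) b g =
      g := by
  refine Subtype.ext (Subtype.ext ?_)
  rw [coe_chartPhi]
  set x := ((g : modularFunctionFieldFullC (IsLocalRing.ResidueField A) M) :
    LaurentSeries (IsLocalRing.ResidueField A))
  have h1 : ModularCurve.qExpand (IsLocalRing.ResidueField A) q x = x ^ q :=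
    congrArg (fun z : chartP (IsLocalRing.ResidueField A) M q b =>
      ((z : modularFunctionFieldFullC (IsLocalRing.ResidueField A) M) :
        LaurentSeries (IsLocalRing.ResidueField A))) hg
  rw [← qExpand_frobTwist (q := q)] at h1
  have h2 : x = frobTwist (q := q) x := qExpand_injective q h1
  ext i
  conv_rhs => rw [h2]
  rw [frobTwist, coeffMap_coeff, coeffMap_coeff, RingHom.coe_coe, hq, frobenius_def]

set_option maxHeartbeats 1000000 in
/-- Frobenius acts on the glueing quotient as the `q`-th power of the graph map. -/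
theorem swapFrob_mk_eq_pow_graph [Finite (IsLocalRing.ResidueField A)]
    (hq : ∀ c : IsLocalRing.ResidueField A, residueAut σ hσ c = c ^ q) (b : Bool)
    (H : Chart.TwoComponent (gaussChart ι hqM hw hfd ϖ hϖ b) q
      (chartFr (IsLocalRing.ResidueField A) q M b))
    (y : chartP (IsLocalRing.ResidueField A) M q b) :
    Ideal.Quotient.mk (glueIdeal H.graphs) ((swapFrob σ hσ ι hqM hw hfd ϖ hϖ b).φ y) =
      Ideal.Quotient.mk (glueIdeal H.graphs)
        (chartFr (IsLocalRing.ResidueField A) q M b y) ^ q := by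
  obtain ⟨G, hG, hFr⟩ := H.exists_generators
  refine mk_apply_eq_pow_graph H hG _ (fun g hg => coeffMap_eq_self_of_chartFr σ hσ hq g (hFr g hg))
    hFr (fun a => ?_) y
  refine Subtype.ext (Subtype.ext ?_)
  show coeffMap (residueAut σ hσ : IsLocalRing.ResidueField A →+* IsLocalRing.ResidueField A)
      (algebraMap (IsLocalRing.ResidueField A) (LaurentSeries _) a) =
    algebraMap (IsLocalRing.ResidueField A) (LaurentSeries _) (a ^ q)
  rw [algebraMap_laurentSeries_eq_single, algebraMap_laurentSeries_eq_single, coeffMap_single,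
    RingHom.coe_coe, hq]

theorem algebraMap_uniformiser :
    algebraMap A (FL (M * q) L) ϖ = (gaussVertical A ι hqM hw hfd ϖ hϖ).π := rfl

theorem isPowerAtHorizontal_gaussChart (b : Bool) {n : ℕ} {f : FL (M * q) L}
    (hf : ∀ v : AlgebraicCurve.Place L (FL (M * q) L), (n : ℤ) ∣ v.ord f) :
    (gaussChart ι hqM hw hfd ϖ hϖ b).IsPowerAtHorizontal n f :=
  haveI := isFunctionField1_FL (L := L) ι (M * q)
  isPowerAtHorizontal_of_dvd_ord ι hϖ (gaussChart ι hqM hw hfd ϖ hϖ b) rfl rfl hf

/-- Over a number field: `w (σ g) * g ^ q` is a constant times an `n`-th power. -/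
theorem exists_pow_mul_eq_const_swapFrob [CharZero L] [Finite (IsLocalRing.ResidueField A)]
    {G : GlobalModel (gaussVertical A ι hqM hw hfd ϖ hϖ) A} (E : Expansion G L)
    (H : ∀ b, Chart.TwoComponent (gaussChart ι hqM hw hfd ϖ hϖ b) q
      (chartFr (IsLocalRing.ResidueField A) q M b))
    (l0 : ChartLink (gaussChart ι hqM hw hfd ϖ hϖ false) G.B0)
    (l1 : ChartLink (gaussChart ι hqM hw hfd ϖ hϖ true) G.B1)
    (hq : ∀ c : IsLocalRing.ResidueField A, residueAut σ hσ c = c ^ q)
    {n : ℕ} (hn : n ≠ 0) (hnq : ¬ q ∣ n) {g : FL (M * q) L}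
    (hg : (gaussChart ι hqM hw hfd ϖ hϖ false).IsNormalised g)
    (hdvd : ∀ v : AlgebraicCurve.Place L (FL (M * q) L), (n : ℤ) ∣ v.ord g)
    (hdvd' : ∀ v : AlgebraicCurve.Place L (FL (M * q) L),
      (n : ℤ) ∣ v.ord (w (arithmeticRingAut (modularFunctionFieldFull (M * q)) σ g))) :
    ∃ (u : FL (M * q) L) (a : L), u ≠ 0 ∧
      u ^ n * (w (arithmeticRingAut (modularFunctionFieldFull (M * q)) σ g) * g ^ q) =
        algebraMap L (FL (M * q) L) a := by
  obtain ⟨ν, hν⟩ : ∃ ν : A, (n : A) * ν = 1 := by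
    have hu : IsUnit ((n : A)) := by
      by_contra hu
      have h0 : ((n : ℕ) : IsLocalRing.ResidueField A) = 0 := by
        rw [← map_natCast (IsLocalRing.residue A), IsLocalRing.residue_eq_zero_iff]
        exact hu
      exact hnq ((CharP.cast_eq_zero_iff (IsLocalRing.ResidueField A) q n).1 h0)
    exact hu.exists_right_inv
  have e0 := swapFrob_toAut_apply σ hσ ι hqM hw hfd ϖ hϖ false g
  rw [← e0] at hdvd' ⊢
  exact exists_pow_mul_eq_const_swap E (H false) (H true) l0 l1
    (swapFrob σ hσ ι hqM hw hfd ϖ hϖ false) (swapFrob σ hσ ι hqM hw hfd ϖ hϖ true)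
    (swapFrob_toAut_eq σ hσ ι hqM hw hfd ϖ hϖ false true)
    (o := ϖ) (algebraMap_uniformiser ι hqM hw hfd ϖ hϖ) hϖ.ne_zero (exists_pow_mul_eq_algebraMap_uniformiser ϖ hϖ) hn hν
    (swapFrob_mk_eq_pow_graph σ hσ ι hqM hw hfd ϖ hϖ hq false (H false))
    (swapFrob_mk_eq_pow_graph σ hσ ι hqM hw hfd ϖ hϖ hq true (H true))
    hg (isPowerAtHorizontal_gaussChart ι hqM hw hfd ϖ hϖ false hdvd)
    (isPowerAtHorizontal_gaussChart ι hqM hw hfd ϖ hϖ false hdvd')
    (isPowerAtHorizontal_gaussChart ι hqM hw hfd ϖ hϖ true hdvd)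
    (isPowerAtHorizontal_gaussChart ι hqM hw hfd ϖ hϖ true hdvd')

end Fermat.Agent.TwoAdic.Torus
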