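import Fermat.Agent.BadPrime.CoreModel

/-!
# Frobenius times Atkin–Lehner on the glueing invariant

A semilinear automorphism `σ` which exchanges the two components of the special fibre and is a
`q`-Frobenius on them sends the glueing invariant `γ` to `γ ^ (-q)`: the glueing points are defined
over `𝔽_{q²}` and the two graphs of Frobenius exchange conjugate points.  Hence `σ g * g ^ q` is a
constant times an `n`-th power: on the toric part Frobenius is `-q` times Atkin–Lehner.
-/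

set_option autoImplicit false
set_option linter.unusedSectionVars false

noncomputable section

open Polynomial

namespace Fermat.Agent.TwoAdic.Torus

open Fermat.Agent.BadPrime

section Chart

variable {R k F K P : Type*} [CommRing R] [IsDomain R] [UniqueFactorizationMonoid R]
  [IsNoetherianRing R] [Field k] [Field F] [Algebra R F] [CommRing K] [Nontrivial K]
  [CommRing P] [Algebra k P] [Algebra k[X] (P × P)] [IsScalarTower k k[X] (P × P)]
  {V : Vertical F K}

/-- A semilinear automorphism of the chart exchanging the two components. -/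
structure SwapSemilinear (c : Chart V R k (P × P)) (Fr : P →ₐ[k] P) where
  /-- The automorphism of the function field. -/
  toAut : F ≃+* F
  mem_Bv : ∀ x ∈ V.Bv, toAut x ∈ V.Bv
  mem_B : ∀ x ∈ c.B, toAut x ∈ c.B
  /-- The induced map from either component to the other one. -/
  φ : P →+* P
  φ_Fr : ∀ a, φ (Fr a) = Fr (φ a)
  rd_apply : ∀ (x : V.Bv) (y : P × P), V.rd x = c.ι y →
    V.rd ⟨toAut x, mem_Bv x x.2⟩ = c.ι (φ y.2, φ y.1)

/-- A semilinear automorphism followed by an exchange of the components. -/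
def SwapSemilinear.comp {c : Chart V R k (P × P)} {Fr : P →ₐ[k] P} (ω : SwapSemilinear c Fr)
    (σ : Chart.Semilinear c Fr) : SwapSemilinear c Fr where
  toAut := σ.toAut.trans ω.toAut
  mem_Bv x hx := ω.mem_Bv _ (σ.mem_Bv x hx)
  mem_B x hx := ω.mem_B _ (σ.mem_B x hx)
  φ := ω.φ.comp σ.φ
  φ_Fr a := by rw [RingHom.comp_apply, σ.φ_Fr, ω.φ_Fr, RingHom.comp_apply]
  rd_apply x y h := ω.rd_apply ⟨σ.toAut x, σ.mem_Bv x x.2⟩ _ (σ.rd_apply x y h)

variable {c : Chart V R k (P × P)} [Finite k] {q : ℕ} [Fact q.Prime] [CharP k q] {Fr : P →ₐ[k] P}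
  {n : ℕ} {hn : n ≠ 0} {g : F} (H : Chart.TwoComponent c q Fr)

theorem SwapSemilinear.isNormalised (σ : SwapSemilinear c Fr) (hg : c.IsNormalised g) :
    c.IsNormalised (σ.toAut g) := by
  obtain ⟨h, h1⟩ := hg.exists_rd
  refine ⟨⟨σ.mem_Bv g h, ?_⟩, ?_⟩
  · refine (σ.rd_apply ⟨g, h⟩ 1 (h1.trans (map_one c.ι).symm)).trans ?_
    rw [Prod.fst_one, Prod.snd_one, map_one, Prod.mk_one_one, map_one]
  · rw [← map_inv₀]; exact σ.mem_Bv _ hg.inv_mem

theorem SwapSemilinear.map_mem (σ : SwapSemilinear c Fr) {x : P × P}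
    (hx : x ∈ c.redSubmodule (c.rootModule n hn g)) :
    (σ.φ x.2, σ.φ x.1) ∈ c.redSubmodule (c.rootModule n hn (σ.toAut g)) := by
  obtain ⟨a, ha, hax⟩ := hx
  refine ⟨⟨σ.toAut a, σ.mem_Bv a a.2⟩, ?_, σ.rd_apply ⟨a, a.2⟩ x hax⟩
  rw [Chart.mem_rootModule] at ha ⊢
  have := σ.mem_B _ ha
  rwa [map_mul, map_pow] at this

/-- The invariant of the image is the inverse of the `q`-th power of the invariant. -/
theorem SwapSemilinear.gamma_mul_pow (σ : SwapSemilinear c Fr)
    (hm : ∀ y : P, Ideal.Quotient.mk (glueIdeal H.graphs) (σ.φ y) =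
      Ideal.Quotient.mk (glueIdeal H.graphs) (Fr y) ^ q)
    (hg : c.IsNormalised g) (hh : c.IsPowerAtHorizontal n g)
    (hh' : c.IsPowerAtHorizontal n (σ.toAut g)) :
    Chart.gamma H hn (σ.isNormalised hg) hh' * Chart.gamma H hn hg hh ^ q = 1 := by
  obtain ⟨x, hx, hx'⟩ := Chart.exists_mem_glueMap_eq H (hn := hn) hg hh
  rw [glueMap_apply, Prod.mk.injEq] at hx'
  have h := (Chart.mem_iff_gamma H (σ.isNormalised hg) hh' _).mp (σ.map_mem hx)
  rw [glueMap_apply] at h
  replace h : Ideal.Quotient.mk (glueIdeal H.graphs) (σ.φ x.1) =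
      Ideal.Quotient.mk (glueIdeal H.graphs) (Fr (σ.φ x.2)) *
        Chart.gamma H hn (σ.isNormalised hg) hh' := h
  have e : Ideal.Quotient.mk (glueIdeal H.graphs) (Fr (Fr x.2)) =
      Ideal.Quotient.mk (glueIdeal H.graphs) x.2 :=
    Ideal.Quotient.eq.mpr (frob_frob_sub_mem H.graphs x.2)
  rw [hm, hx'.1, one_pow, ← σ.φ_Fr, hm, e, hx'.2] at h
  rw [mul_comm]
  exact h.symm

/-- `σ g * g ^ q` has a root reducing to `1`. -/
theorem SwapSemilinear.one_mem_rootModule (σ : SwapSemilinear c Fr)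
    (hm : ∀ y : P, Ideal.Quotient.mk (glueIdeal H.graphs) (σ.φ y) =
      Ideal.Quotient.mk (glueIdeal H.graphs) (Fr y) ^ q)
    (hg : c.IsNormalised g) (hh : c.IsPowerAtHorizontal n g)
    (hh' : c.IsPowerAtHorizontal n (σ.toAut g)) :
    (1 : P × P) ∈ c.redSubmodule (c.rootModule n hn (σ.toAut g * g ^ q)) := by
  have hN := (σ.isNormalised hg).mul (hg.pow q)
  have hP := hh'.mul (hh.pow q)
  rw [← Chart.gamma_eq_one_iff H hN hP,
    Chart.gamma_mul H (σ.isNormalised hg) hh' (hg.pow q) (hh.pow q) hN hP,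
    Chart.gamma_pow_exponent H hg hh q]
  exact σ.gamma_mul_pow H hm hg hh hh'

/-- A `q`-semilinear map fixing the rational generators is, on the glueing quotient, the `q`-th
power of the graph map. -/
theorem mk_apply_eq_pow_graph {G : Finset P} (hG : Algebra.adjoin k (G : Set P) = ⊤) (φ : P →+* P)
    (hφG : ∀ b ∈ G, φ b = b) (hFr : ∀ b ∈ G, Fr b = b ^ q)
    (hφk : ∀ a : k, φ (algebraMap k P a) = algebraMap k P (a ^ q)) (y : P) :
    Ideal.Quotient.mk (glueIdeal H.graphs) (φ y) =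
      Ideal.Quotient.mk (glueIdeal H.graphs) (Fr y) ^ q := by
  rcases subsingleton_or_nontrivial (P ⧸ glueIdeal H.graphs) with hs | hs
  · exact Subsingleton.elim _ _
  have : CharP (P ⧸ glueIdeal H.graphs) q :=
    charP_of_injective_ringHom (algebraMap k (P ⧸ glueIdeal H.graphs)).injective q
  have hy : ∀ y : P, y ∈ Algebra.adjoin k (G : Set P) := fun y => hG ▸ Algebra.mem_top
  induction hy y using Algebra.adjoin_induction with
  | mem b hb =>
    have h1 := (Ideal.Quotient.eq).mpr (frob_frob_sub_mem H.graphs b)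
    rw [hFr b hb, map_pow, hFr b hb] at h1
    rw [hφG b hb, hFr b hb, ← map_pow]
    exact h1.symm
  | algebraMap a => rw [hφk, AlgHom.commutes, map_pow, map_pow]
  | add a b _ _ ha hb => rw [map_add, map_add, ha, hb, map_add, map_add, add_pow_char]
  | mul a b _ _ ha hb => rw [map_mul, map_mul, ha, hb, map_mul, map_mul, mul_pow]

end Chart

variable {F K L O k : Type*} [Field F] [CommRing K] [Nontrivial K] [Field L] [CharZero L]
  [CommRing O] [IsDomain O] [IsPrincipalIdealRing O] [Algebra O L] [IsFractionRing O L]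
  [Algebra L F] [Algebra O F] [IsScalarTower O L F]
  [Field k] [Finite k] {q : ℕ} [Fact q.Prime] [CharP k q]
  {R : Type*} [CommRing R] [IsDomain R] [UniqueFactorizationMonoid R] [IsNoetherianRing R]
  [Algebra R F] {P : Type*} [CommRing P] [Algebra k P] [Algebra k[X] (P × P)]
  [IsScalarTower k k[X] (P × P)]
  {R' : Type*} [CommRing R'] [IsDomain R'] [UniqueFactorizationMonoid R'] [IsNoetherianRing R']
  [Algebra R' F] {P' : Type*} [CommRing P'] [Algebra k P'] [Algebra k[X] (P' × P')]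
  [IsScalarTower k k[X] (P' × P')]

/-- For a normalised `g` and a swapped `q`-semilinear `σ`, the function `σ g * g ^ q` is a
constant times an `n`-th power. -/
theorem exists_pow_mul_eq_const_swap {V : Vertical F K} {G : GlobalModel V O}
    (E : Expansion G L)
    {c0 : Chart V R k (P × P)} {Fr0 : P →ₐ[k] P} (H0 : Chart.TwoComponent c0 q Fr0)
    {c1 : Chart V R' k (P' × P')} {Fr1 : P' →ₐ[k] P'} (H1 : Chart.TwoComponent c1 q Fr1)
    (l0 : ChartLink c0 G.B0) (l1 : ChartLink c1 G.B1)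
    (σ0 : SwapSemilinear c0 Fr0) (σ1 : SwapSemilinear c1 Fr1) (hσ : σ0.toAut = σ1.toAut)
    {o : O} (ho : algebraMap O F o = V.π) (ho0 : o ≠ 0)
    (hden : ∀ x : L, ∃ (e : ℕ) (y : O), algebraMap O L (o ^ e) * x = algebraMap O L y)
    {n : ℕ} (hn : n ≠ 0) {ν : O} (hν : (n : O) * ν = 1)
    (hm0 : ∀ y : P, Ideal.Quotient.mk (glueIdeal H0.graphs) (σ0.φ y) =
      Ideal.Quotient.mk (glueIdeal H0.graphs) (Fr0 y) ^ q)
    (hm1 : ∀ y : P', Ideal.Quotient.mk (glueIdeal H1.graphs) (σ1.φ y) =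
      Ideal.Quotient.mk (glueIdeal H1.graphs) (Fr1 y) ^ q)
    {g : F} (hg : c0.IsNormalised g)
    (hh0 : c0.IsPowerAtHorizontal n g) (hh0' : c0.IsPowerAtHorizontal n (σ0.toAut g))
    (hh1 : c1.IsPowerAtHorizontal n g) (hh1' : c1.IsPowerAtHorizontal n (σ0.toAut g)) :
    ∃ (u : F) (a : L), u ≠ 0 ∧ u ^ n * (σ0.toAut g * g ^ q) = algebraMap L F a := by
  have hg1 : c1.IsNormalised g := ⟨hg.exists_rd, hg.inv_mem⟩
  have e0 := σ0.one_mem_rootModule (n := n) (hn := hn) H0 hm0 hg hh0 hh0'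
  have e1 := σ1.one_mem_rootModule (n := n) (hn := hn) H1 hm1 hg1 hh1 (hσ ▸ hh1')
  rw [← hσ] at e1
  obtain ⟨a0, ha0, ha0v⟩ := exists_root_of_one_mem l0 hn e0
  obtain ⟨a1, ha1, ha1v⟩ := exists_root_of_one_mem l1 hn e1
  have hN : c0.IsNormalised (σ0.toAut g * g ^ q) := (σ0.isNormalised hg).mul (hg.pow q)
  obtain ⟨hhBv, hh1v⟩ := hN.exists_rd
  exact exists_pow_mul_eq_algebraMap E hn ho ho0 hden hN.ne_zero hhBv hN.inv_mem
    (G.exists_approximate_roots hn hν hN.ne_zero hhBv ha0 ha0v ha1 ha1v hh1v)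

end Fermat.Agent.TwoAdic.Torus
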