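import Fermat.Agent.TwoAdic.Torus.Swap
import Fermat.Agent.BadPrime.GaussChart
import Fermat.Agent.BadPrime.GaussModularEq

/-!
# The Atkin–Lehner involution on the two charts

`w` preserves both localised charts, as `j(qz)` is integral over `A[j]` and `1/j(qz)` over the
localised chart at `1/j`, and the elements reducing to `1` are units there; it exchanges the two
components.
-/

set_option autoImplicit false
set_option synthInstance.maxHeartbeats 400000
set_option linter.unusedSectionVars false
set_option maxSynthPendingDepth 3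

noncomputable section

open ModularCurve Polynomial

namespace Fermat.Agent.TwoAdic.Torus

open Fermat.Agent.BadPrime Fermat.Agent.Reduction Fermat.Agent.Modular

variable {L : Type*} [Field L] [Algebra ℚ L] [Algebra.IsAlgebraic ℚ L] {A : ValuationSubring L}
  [IsDiscreteValuationRing A] {q : ℕ} [Fact q.Prime] [CharP (IsLocalRing.ResidueField A) q]
  {M : ℕ} [NeZero M] {b : Bool} {w : FL (M * q) L →ₐ[L] FL (M * q) L}

instance isIntegral_chartB : Algebra.IsIntegral (ChartBase A b) (chartB A (M * q) b) :=
  inferInstanceAs (Algebra.IsIntegral (ChartBase A b)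
    (integralClosure (ChartBase A b) (FL (M * q) L)))

theorem w_chartCoord (hw : IsALInvolution w) :
    w (chartCoord L (M * q) b) = cond b (heckeBetaBar L M q (jL M L))⁻¹
      (heckeBetaBar L M q (jL M L)) := by
  rw [← heckeAlpha_chartCoord, hw.alpha]
  cases b
  · rfl
  · simp only [chartCoord, cond_true, map_inv₀]

theorem isIntegral_w_chartCoord (hw : IsALInvolution w) :
    w (chartCoord L (M * q) b) ∈ chartB A (M * q) b := by
  rw [w_chartCoord hw]
  cases b
  · have h : IsIntegral (Algebra.adjoin A ({chartCoord L (M * q) false} : Set (FL (M * q) L)))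
        (heckeBetaBar L M q (jL M L)) := heckeBeta_jL_mem_chartB0
    have hle : ∀ x ∈ Algebra.adjoin A ({chartCoord L (M * q) false} : Set (FL (M * q) L)),
        x ∈ (algebraMap (ChartBase A false) (FL (M * q) L)).range := by
      intro x hx
      induction hx using Algebra.adjoin_induction with
      | mem y hy =>
        rw [Set.mem_singleton_iff.mp hy]
        exact ⟨algebraMap A[X] _ X, by
          rw [algebraMap_chartBase_algebraMap, chartEval, coe_eval₂RingHom, eval₂_X]⟩
      | algebraMap a =>
        exact ⟨algebraMap A[X] _ (C a), by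
          rw [algebraMap_chartBase_algebraMap, chartEval, coe_eval₂RingHom, eval₂_C]
          rfl⟩
      | add x y _ _ hx hy => exact add_mem hx hy
      | mul x y _ _ hx hy => exact mul_mem hx hy
    let f : Algebra.adjoin A ({chartCoord L (M * q) false} : Set (FL (M * q) L)) →+*
        chartB A (M * q) false :=
      (Algebra.adjoin A ({chartCoord L (M * q) false} : Set _)).toSubring.subtype.codRestrict _
        fun x => by
          obtain ⟨r, hr⟩ := hle x x.2
          show (x : FL (M * q) L) ∈ chartB A (M * q) false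
          exact hr ▸ (chartB A (M * q) false).algebraMap_mem r
    obtain ⟨p, hp, hpx⟩ := h
    refine isIntegral_trans (A := chartB A (M * q) false) _ ⟨p.map f, hp.map f, ?_⟩
    rw [eval₂_map]
    exact hpx
  · exact isIntegral_heckeBeta_jL_inv hw

variable {ϖ : A}

theorem w_chartEval_mem (hw : IsALInvolution w) (r : A[X]) :
    w (chartEval A (M * q) b r) ∈ chartB A (M * q) b := by
  induction r using Polynomial.induction_on' with
  | add p p' hp hp' => rw [map_add, map_add]; exact add_mem hp hp'
  | monomial i a =>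
    rw [chartEval, coe_eval₂RingHom, eval₂_monomial, map_mul, map_pow]
    refine mul_mem ?_ (pow_mem (isIntegral_w_chartCoord hw) i)
    rw [show ((algebraMap L (FL (M * q) L)).comp A.subtype) a =
      algebraMap L (FL (M * q) L) (a : L) from rfl, AlgHom.commutes]
    have h := (chartB A (M * q) b).algebraMap_mem (algebraMap A[X] _ (C a))
    rwa [algebraMap_chartBase_algebraMap, chartEval, coe_eval₂RingHom, eval₂_C] at h

/-- An element congruent to `1` modulo the uniformiser is a unit of the chart. -/
theorem inv_mem_chartB_of_congr (hϖ : Irreducible ϖ) {y : FL (M * q) L}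
    (hy : y ∈ chartB A (M * q) b) :
    (1 + algebraMap L (FL (M * q) L) (ϖ : L) * y)⁻¹ ∈ chartB A (M * q) b := by
  set B := chartB A (M * q) b
  set c : ChartBase A b := chartPi A b ϖ
  have hc : algebraMap (ChartBase A b) (FL (M * q) L) c = algebraMap L _ (ϖ : L) :=
    algebraMap_chartPi (M * q) ϖ
  set z : B := 1 + algebraMap (ChartBase A b) B c * ⟨y, hy⟩ with hz
  have hzu : IsUnit z := by
    by_contra hnu
    obtain ⟨m, hm, hzm⟩ := exists_max_ideal_of_mem_nonunits hnu
    have : (m.comap (algebraMap (ChartBase A b) B)).IsMaximal :=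
      Ideal.isMaximal_comap_of_isIntegral_of_isMaximal m
    have hcm : c ∈ m.comap (algebraMap (ChartBase A b) B) := by
      by_contra hcn
      obtain ⟨r, i, hi, hri⟩ := this.exists_inv hcn
      refine this.ne_top (Ideal.eq_top_of_isUnit_mem _ hi ?_)
      have := isUnit_one_add_chartPi hϖ (-r)
      rwa [← hri, mul_neg, add_neg_eq_iff_eq_add.mpr ?_] at this
      rw [mul_comm]
      ring
    refine hm.ne_top ((Ideal.eq_top_iff_one m).mpr ?_)
    have := sub_mem hzm (m.mul_mem_right ⟨y, hy⟩ (Ideal.mem_comap.mp hcm))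
    rwa [hz, add_sub_cancel_right] at this
  obtain ⟨u, hu⟩ := hzu
  have h1 : (z : FL (M * q) L) * ((↑u⁻¹ : B) : FL (M * q) L) = 1 := by
    rw [← hu, ← Subalgebra.coe_mul, Units.mul_inv, Subalgebra.coe_one]
  have h2 : (z : FL (M * q) L) = 1 + algebraMap L _ (ϖ : L) * y := by
    rw [← hc]; rfl
  rw [← h2, inv_eq_of_mul_eq_one_right h1]
  exact (↑u⁻¹ : B).2

theorem w_algebraMap_chartBase_mem (hw : IsALInvolution w) (hϖ : Irreducible ϖ)
    (r : ChartBase A b) :
    w (algebraMap (ChartBase A b) (FL (M * q) L) r) ∈ chartB A (M * q) b := by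
  obtain ⟨x, s, rfl⟩ := IsLocalization.exists_mk'_eq (chartS A b) r
  have h := congrArg (algebraMap (ChartBase A b) (FL (M * q) L))
    (IsLocalization.mk'_spec (ChartBase A b) x s)
  rw [map_mul, algebraMap_chartBase_algebraMap, algebraMap_chartBase_algebraMap] at h
  rw [eq_div_of_mul_eq (chartEval_ne_zero A (M * q) s) h, map_div₀, div_eq_mul_inv]
  refine mul_mem (w_chartEval_mem hw x) ?_
  obtain ⟨s', hs'⟩ : C ϖ ∣ (s : A[X]) - 1 := by
    rw [← redPoly_eq_zero_iff hϖ, map_sub, (mem_chartS A).1 s.2, map_one, sub_self]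
  have hs : w (chartEval A (M * q) b s) =
      1 + algebraMap L (FL (M * q) L) (ϖ : L) * w (chartEval A (M * q) b s') := by
    rw [show (s : A[X]) = 1 + C ϖ * s' by rw [← hs']; ring, map_add, map_mul, map_one, map_add,
      map_mul, map_one]
    congr 2
    rw [chartEval, coe_eval₂RingHom, eval₂_C]
    exact w.commutes _
  rw [hs]
  exact inv_mem_chartB_of_congr hϖ (w_chartEval_mem hw s')

theorem w_mem_chartB (hw : IsALInvolution w) (hϖ : Irreducible ϖ) {x : FL (M * q) L}
    (hx : x ∈ chartB A (M * q) b) : w x ∈ chartB A (M * q) b := by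
  obtain ⟨p, hp, hpx⟩ := hx
  let f : ChartBase A b →+* chartB A (M * q) b :=
    (((w : FL (M * q) L →+* FL (M * q) L)).comp (algebraMap (ChartBase A b) _)).codRestrict _
      fun r => w_algebraMap_chartBase_mem hw hϖ r
  refine isIntegral_trans (A := chartB A (M * q) b) _ ⟨p.map f, hp.map f, ?_⟩
  have h := congrArg (w : FL (M * q) L →+* FL (M * q) L) hpx
  rw [map_zero, hom_eval₂] at h
  rw [eval₂_map]
  exact h

/-- An Atkin–Lehner involution as a ring automorphism. -/
def alEquiv (hw : IsALInvolution w) : FL (M * q) L ≃+* FL (M * q) L :=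
  RingEquiv.ofRingHom (w : FL (M * q) L →+* FL (M * q) L) (w : FL (M * q) L →+* FL (M * q) L)
    (RingHom.ext hw.invol) (RingHom.ext hw.invol)

theorem alEquiv_apply (hw : IsALInvolution w) (x : FL (M * q) L) : alEquiv hw x = w x := rfl

variable (ι : L →+* ℂ) (hqM : ¬ q ∣ M) (hw : IsALInvolution w)
  (hfd : HasFullResidueDegree (IsLocalRing.ResidueField A) L M) (hϖ : Irreducible ϖ)

theorem alEquiv_mem_pairBv {x : FL (M * q) L} (hx : x ∈ pairBv (IsLocalRing.residue A) w) :
    alEquiv hw x ∈ pairBv (IsLocalRing.residue A) w := by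
  rw [mem_pairBv] at hx ⊢
  rw [alEquiv_apply, hw.invol]
  exact hx.symm

theorem pairRd_alEquiv (x : pairBv (IsLocalRing.residue A) w) :
    pairRd A ι hqM hw hfd ⟨alEquiv hw x, alEquiv_mem_pairBv hw x.2⟩ =
      (pairRd A ι hqM hw hfd x).swap := by
  have h2 : HasGaussRed (IsLocalRing.residue A)
      ((w (alEquiv hw (x : FL (M * q) L)) : FL (M * q) L) : LaurentSeries L)
      (pairRed1 (IsLocalRing.residue A) w x) := by
    rw [alEquiv_apply, hw.invol]
    exact hasGaussRed_pairRed1 _ w x
  refine Prod.ext (Subtype.ext ?_) (Subtype.ext ?_)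
  · exact (hasGaussRed_pairRed1 (IsLocalRing.residue A) w ⟨_, alEquiv_mem_pairBv hw x.2⟩).unique
      (hasGaussRed_pairRed2 _ w x)
  · exact (hasGaussRed_pairRed2 (IsLocalRing.residue A) w ⟨_, alEquiv_mem_pairBv hw x.2⟩).unique h2

/-- The Atkin–Lehner involution exchanges the two components. -/
def gaussSwap (b : Bool) :
    SwapSemilinear (gaussChart ι hqM hw hfd ϖ hϖ b)
      (chartFr (IsLocalRing.ResidueField A) q M b) where
  toAut := alEquiv hw
  mem_Bv _ hx := alEquiv_mem_pairBv hw hx
  mem_B _ hx := w_mem_chartB hw hϖ hx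
  φ := RingHom.id _
  φ_Fr _ := rfl
  rd_apply x y h := by
    refine (pairRd_alEquiv ι hqM hw hfd x).trans ?_
    rw [show pairRd A ι hqM hw hfd x = chartIncl (IsLocalRing.ResidueField A) q M b y from h]
    rfl

end Fermat.Agent.TwoAdic.Torus
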